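import Mathlib

set_option autoImplicit false

/-!
# S14, Part A, step 1: the Lagrange resolvent attached to a cocycle
-/

namespace Fermat.Agent.S14.PartA

section Cocycle

variable {p : ℕ} [Fact p.Prime] {G : Type*} [Group G] {χ : G →* (ZMod p)ˣ} {θ : G → ZMod p}

/-- `θ` is a cocycle: `σ x₀ = χ(σ) x₀ + θ(σ) c₀`. -/
def IsCoc (χ : G →* (ZMod p)ˣ) (θ : G → ZMod p) : Prop :=
  ∀ σ τ : G, θ (σ * τ) = (χ τ : ZMod p) * θ σ + θ τ

theorem IsCoc.one (h : IsCoc χ θ) : θ 1 = 0 := by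
  have := h 1 1
  rw [mul_one, map_one, Units.val_one, one_mul] at this
  exact left_eq_add.mp this

theorem IsCoc.mul_of_ker (h : IsCoc χ θ) (σ : G) {τ : G} (hτ : χ τ = 1) :
    θ (σ * τ) = θ σ + θ τ := by
  rw [h σ τ, hτ, Units.val_one, one_mul]

theorem IsCoc.inv_of_ker (h : IsCoc χ θ) {σ : G} (hσ : χ σ = 1) : θ σ⁻¹ = - θ σ := by
  have h1 := h.mul_of_ker σ⁻¹ hσ
  rw [inv_mul_cancel, h.one] at h1
  exact eq_neg_of_add_eq_zero_left h1.symm

theorem IsCoc.pow_of_ker (h : IsCoc χ θ) {σ : G} (hσ : χ σ = 1) (n : ℕ) :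
    θ (σ ^ n) = n * θ σ := by
  induction n with
  | zero => simp [h.one]
  | succ n ih => rw [pow_succ, h.mul_of_ker _ hσ, ih]; push_cast; ring

theorem IsCoc.conj (h : IsCoc χ θ) {σ : G} (hσ : χ σ = 1) (g : G) :
    θ (g⁻¹ * σ * g) = (χ g : ZMod p) * θ σ := by
  have h1 : χ (g⁻¹ * σ * g) = 1 := by simp [hσ]
  have h2 := h.mul_of_ker g h1
  have h3 : g * (g⁻¹ * σ * g) = σ * g := by group
  rw [h3, h σ g] at h2
  rw [add_comm] at h2
  exact (add_left_cancel h2).symm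

/-- The kernel of the pair `(χ, θ)`. -/
def IsCoc.ker (h : IsCoc χ θ) : Subgroup G where
  carrier := {σ | χ σ = 1 ∧ θ σ = 0}
  one_mem' := ⟨map_one _, h.one⟩
  mul_mem' := by
    rintro a b ⟨ha, ha'⟩ ⟨hb, hb'⟩
    exact ⟨by rw [map_mul, ha, hb, one_mul], by rw [h.mul_of_ker a hb, ha', hb', add_zero]⟩
  inv_mem' := by
    rintro a ⟨ha, ha'⟩
    exact ⟨by rw [map_inv, ha, inv_one], by rw [h.inv_of_ker ha, ha', neg_zero]⟩

theorem IsCoc.mem_ker (h : IsCoc χ θ) {σ : G} : σ ∈ h.ker ↔ χ σ = 1 ∧ θ σ = 0 := Iff.rfl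

end Cocycle

section Resolvent

variable {p : ℕ} [Fact p.Prime] {k E : Type*} [Field k] [Field E] [Algebra k E] [IsGalois k E]
  {χ : (E ≃ₐ[k] E) →* (ZMod p)ˣ} {θ : (E ≃ₐ[k] E) → ZMod p}

theorem exists_resolvent (h : IsCoc χ θ) {ζ : E} (hζ : IsPrimitiveRoot ζ p)
    (hχ : ∀ g : E ≃ₐ[k] E, g ζ = ζ ^ (χ g : ZMod p).val)
    {σ₁ : E ≃ₐ[k] E} (hσ₁ : χ σ₁ = 1) (hθ₁ : θ σ₁ = 1)
    (hcl : IsClosed (h.ker : Set (E ≃ₐ[k] E))) :
    ∃ u : E, u ≠ 0 ∧ ∀ σ : E ≃ₐ[k] E, χ σ = 1 → σ u = ζ ^ (θ σ).val * u := by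
  have hp : p.Prime := Fact.out
  have : NeZero p := ⟨hp.ne_zero⟩
  set e : AddChar (ZMod p) E := AddChar.zmodChar p hζ.pow_eq_one with he
  have he_apply : ∀ a : ZMod p, e a = ζ ^ a.val := fun a => AddChar.zmodChar_apply _ a
  have he_ne : ∀ a : ZMod p, e a ≠ 0 := fun a => by
    rw [he_apply]; exact pow_ne_zero _ (hζ.ne_zero hp.ne_zero)
  have he_fix : ∀ σ : E ≃ₐ[k] E, χ σ = 1 → ∀ a, σ (e a) = e a := by
    intro σ hσ a
    have h1 : σ ζ = ζ := by
      rw [hχ σ, hσ, Units.val_one, ZMod.val_one, pow_one]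
    rw [he_apply, map_pow, h1]
  set s : ZMod p → (E ≃ₐ[k] E) := fun a => σ₁ ^ a.val with hs
  have hsχ : ∀ a, χ (s a) = 1 := fun a => by rw [hs]; simp [hσ₁]
  have hsθ : ∀ a, θ (s a) = a := fun a => by
    rw [hs]
    simp only
    rw [h.pow_of_ker hσ₁, hθ₁, mul_one, ZMod.natCast_val, ZMod.cast_id]
  set L : IntermediateField k E := IntermediateField.fixedField h.ker with hL
  have hfix : L.fixingSubgroup = h.ker :=
    InfiniteGalois.fixingSubgroup_fixedField (⟨h.ker, hcl⟩ : ClosedSubgroup (E ≃ₐ[k] E))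
  -- two elements of `ker χ` with the same `θ` agree on `L`
  have hagree : ∀ σ τ : E ≃ₐ[k] E, χ σ = 1 → χ τ = 1 → θ σ = θ τ → ∀ y ∈ L, σ y = τ y := by
    intro σ τ hσ hτ hθ y hy
    have hmem : τ⁻¹ * σ ∈ h.ker := by
      refine ⟨by simp [hσ, hτ], ?_⟩
      rw [h.mul_of_ker _ hσ, h.inv_of_ker hτ, hθ, neg_add_cancel]
    have h1 : (τ⁻¹ * σ) y = y := by
      have := (IntermediateField.mem_fixedField_iff _ _).mp hy _ hmem
      exact this
    have h2 : τ ((τ⁻¹ * σ) y) = σ y := by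
      rw [← AlgEquiv.mul_apply, mul_inv_cancel_left]
    rw [← h2, h1]
  -- independence of characters
  set m : ZMod p → (L →* E) := fun a => (((s a : E →ₐ[k] E).comp L.val : L →ₐ[k] E) : L →* E)
    with hm
  have hm_apply : ∀ a (y : L), m a y = s a (y : E) := fun a y => rfl
  have hm_inj : Function.Injective m := by
    intro a b hab
    have hmem : (s b)⁻¹ * s a ∈ L.fixingSubgroup := by
      rw [IntermediateField.mem_fixingSubgroup_iff]
      intro y hy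
      have h1 : s a y = s b y := by
        have := DFunLike.congr_fun hab (⟨y, hy⟩ : L)
        rwa [hm_apply, hm_apply] at this
      show ((s b)⁻¹ * s a) y = y
      rw [AlgEquiv.mul_apply, h1, ← AlgEquiv.mul_apply, inv_mul_cancel, AlgEquiv.one_apply]
    rw [hfix] at hmem
    have h2 := hmem.2
    rw [h.mul_of_ker _ (hsχ a), h.inv_of_ker (hsχ b), hsθ, hsθ] at h2
    exact (neg_add_eq_zero.mp h2).symm
  have hli : LinearIndependent E (fun a : ZMod p => (m a : L → E)) :=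
    (linearIndependent_monoidHom L E).comp m hm_inj
  have hex : ∃ y : L, ∑ a : ZMod p, e (-a) * s a (y : E) ≠ 0 := by
    by_contra hcon
    push Not at hcon
    have h0 : ∑ a : ZMod p, e (-a) • (m a : L → E) = 0 := by
      funext y
      rw [Finset.sum_apply]
      simpa [hm_apply] using hcon y
    exact he_ne _ (Fintype.linearIndependent_iff.mp hli _ h0 0)
  obtain ⟨y, hy⟩ := hex
  refine ⟨_, hy, ?_⟩
  intro σ hσ
  rw [map_sum, Finset.mul_sum, ← he_apply]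
  rw [← Fintype.sum_equiv (Equiv.addLeft (θ σ)) (fun a => σ (e (-a) * s a (y : E)))
    (fun b => e (θ σ) * (e (-b) * s b (y : E)))]
  intro a
  rw [map_mul, he_fix σ hσ, ← mul_assoc, ← AddChar.map_add_eq_mul, Equiv.coe_addLeft]
  have h1 : θ σ + -(θ σ + a) = -a := by ring
  rw [h1]
  congr 1
  rw [← AlgEquiv.mul_apply]
  refine hagree _ _ (by rw [map_mul, hσ, hsχ, one_mul]) (hsχ _) ?_ _ y.2
  rw [h.mul_of_ker _ (hsχ a), hsθ, hsθ]

end Resolvent

end Fermat.Agent.S14.PartA
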