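import Mathlib
import Fermat.Prelude.Def_ExtCitation_KummerBridge
import Fermat.Agent.Common.PlaceBridgeVal
import Fermat.Agent.S14.PartA.Resolvent

set_option autoImplicit false

/-!
# S14, Part A, step 2: the mod `p` cyclotomic character
-/

namespace Fermat.Agent.S14.PartA

open ExtCitation Fermat.Agent.Bridge

local notation "Qbar" => AlgebraicClosure ℚ
local notation "GQ" => (AlgebraicClosure ℚ ≃ₐ[ℚ] AlgebraicClosure ℚ)

variable {p : ℕ} [Fact p.Prime]

theorem cycloChar_spec {ζ : Qbar} (hζ : ζ ^ p = 1) (g : GQ) :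
    g ζ = ζ ^ ((cycloChar p g : (ZMod p)ˣ) : ZMod p).val := by
  have : NeZero p := ⟨(Fact.out : p.Prime).ne_zero⟩
  have h := modularCyclotomicCharacter.spec (AlgebraicClosure ℚ) (card_rootsOfUnity_eq_self p)
    (g : Qbar ≃+* Qbar) (t := (rootsOfUnity.mkOfPowEq ζ hζ : Qbarˣ))
    (rootsOfUnity.mkOfPowEq ζ hζ).2
  have h' : g ζ = ζ ^ ((modularCyclotomicCharacter (AlgebraicClosure ℚ)
      (card_rootsOfUnity_eq_self p) (g : Qbar ≃+* Qbar) : (ZMod p)ˣ) : ZMod p).val := by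
    simpa using h
  exact h'

theorem pow_eq_pow_of_natCast_eq {R : Type*} [CommMonoid R] {ζ : R} (hζ : ζ ^ p = 1) {a b : ℕ}
    (hab : (a : ZMod p) = b) : ζ ^ a = ζ ^ b := by
  rw [pow_eq_pow_mod a hζ, pow_eq_pow_mod b hζ]
  congr 1
  exact (ZMod.natCast_eq_natCast_iff' a b p).mp hab

theorem natCast_eq_of_pow_eq_pow {R : Type*} [CommMonoid R] {ζ : R} (hζ : IsPrimitiveRoot ζ p)
    {a b : ℕ} (hab : ζ ^ a = ζ ^ b) : (a : ZMod p) = b := by
  have hp : 0 < p := (Fact.out : p.Prime).pos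
  rw [pow_eq_pow_mod a hζ.pow_eq_one, pow_eq_pow_mod b hζ.pow_eq_one] at hab
  exact (ZMod.natCast_eq_natCast_iff' a b p).mpr
    (hζ.pow_inj (Nat.mod_lt _ hp) (Nat.mod_lt _ hp) hab)

theorem natCast_eq_cycloChar {ζ : Qbar} (hζ : IsPrimitiveRoot ζ p) {g : GQ} {k : ℕ}
    (hk : g ζ = ζ ^ k) : (k : ZMod p) = ((cycloChar p g : (ZMod p)ˣ) : ZMod p) := by
  have : NeZero p := ⟨(Fact.out : p.Prime).ne_zero⟩
  rw [cycloChar_spec hζ.pow_eq_one] at hk
  rw [← natCast_eq_of_pow_eq_pow hζ hk, ZMod.natCast_val, ZMod.cast_id]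

theorem cycloChar_eq_one_iff {ζ : Qbar} (hζ : IsPrimitiveRoot ζ p) {g : GQ} :
    cycloChar p g = 1 ↔ g ζ = ζ := by
  constructor
  · intro h
    have h1 : 1 < p := (Fact.out : p.Prime).one_lt
    have : Fact (1 < p) := ⟨h1⟩
    rw [cycloChar_spec hζ.pow_eq_one, h, Units.val_one, ZMod.val_one, pow_one]
  · intro h
    have := natCast_eq_cycloChar hζ (g := g) (k := 1) (by rw [pow_one, h])
    ext
    rw [← this, Units.val_one, Nat.cast_one]

/-- `ker χ` is the fixer of the cyclotomic field. -/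
theorem cycloChar_eq_one_iff_mem_fixer {K : Type*} [Field K] [NumberField K]
    [IsCyclotomicExtension {p} ℚ K] (φ : K →+* Qbar) {g : GQ} :
    cycloChar p g = 1 ↔ g ∈ fixer φ := by
  have : NeZero p := ⟨(Fact.out : p.Prime).ne_zero⟩
  have hζK := IsCyclotomicExtension.zeta_spec p ℚ K
  have hζ : IsPrimitiveRoot (φ (IsCyclotomicExtension.zeta p ℚ K)) p :=
    hζK.map_of_injective φ.injective
  rw [cycloChar_eq_one_iff hζ, mem_fixer]
  constructor
  · intro h x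
    have h1 : ((g : Qbar →+* Qbar).comp φ).toRatAlgHom = φ.toRatAlgHom := by
      apply (hζK.powerBasis ℚ).algHom_ext
      simpa using h
    exact DFunLike.congr_fun h1 x
  · intro h
    exact h _

theorem exists_cycloChar_ne_one (h3 : 3 ≤ p) : ∃ g : GQ, cycloChar p g ≠ 1 := by
  have hp : p.Prime := Fact.out
  have : NeZero p := ⟨hp.ne_zero⟩
  by_contra hcon
  push Not at hcon
  obtain ⟨ζ, hζ⟩ := HasEnoughRootsOfUnity.exists_primitiveRoot Qbar p
  have hfix : ∀ g : GQ, g ζ = ζ := fun g => (cycloChar_eq_one_iff hζ).mp (hcon g)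
  have hbot : ζ ∈ (⊥ : IntermediateField ℚ Qbar) := (InfiniteGalois.mem_bot_iff_fixed ζ).mpr hfix
  obtain ⟨q, hq⟩ := IntermediateField.mem_bot.mp hbot
  have hodd : Odd p := hp.odd_of_ne_two (by omega)
  have h1 : q ^ p = 1 := by
    apply (algebraMap ℚ Qbar).injective
    rw [map_pow, hq, hζ.pow_eq_one, map_one]
  have h2 : q = 1 := by
    apply hodd.strictMono_pow.injective
    simpa using h1
  rw [h2, map_one] at hq
  exact hp.one_lt.ne' (hζ.unique (hq ▸ IsPrimitiveRoot.one))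

/-- The "type" of the resolvent. -/
theorem resolvent_type {θ : GQ → ZMod p} (h : IsCoc (cycloChar p) θ) {ζ : Qbar}
    (hζ : IsPrimitiveRoot ζ p) {u : Qbar}
    (hu : ∀ σ : GQ, cycloChar p σ = 1 → σ u = ζ ^ (θ σ).val * u) (g : GQ) {k : ℕ}
    (hk : g ζ = ζ ^ k) {σ : GQ} (hσ : cycloChar p σ = 1) :
    σ (g u / u ^ (k ^ 2)) = g u / u ^ (k ^ 2) := by
  have : NeZero p := ⟨(Fact.out : p.Prime).ne_zero⟩
  by_cases hu0 : u = 0
  · subst hu0; simp
  have hζ0 : ζ ≠ 0 := hζ.ne_zero (Fact.out : p.Prime).ne_zero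
  have hkχ := natCast_eq_cycloChar hζ hk
  have h1 : cycloChar p (g⁻¹ * σ * g) = 1 := by simp [hσ]
  have h2 : σ (g u) = g ((g⁻¹ * σ * g) u) := by
    rw [← AlgEquiv.mul_apply, ← AlgEquiv.mul_apply]
    congr 1
    group
  rw [map_div₀, map_pow, h2, hu _ h1, hu σ hσ, map_mul, map_pow, hk, h.conj hσ, mul_pow,
    ← pow_mul, ← pow_mul]
  have h3 : ζ ^ (k * ((cycloChar p g : ZMod p) * θ σ).val) = ζ ^ ((θ σ).val * k ^ 2) := by
    apply pow_eq_pow_of_natCast_eq hζ.pow_eq_one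
    push_cast
    rw [ZMod.natCast_val, ZMod.cast_id, ZMod.natCast_val, ZMod.cast_id, hkχ]
    ring
  rw [h3, mul_div_mul_left _ _ (pow_ne_zero _ hζ0)]

end Fermat.Agent.S14.PartA
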