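import Mathlib

set_option autoImplicit false

/-!
# S14, Part A, step 0: linear algebra of an extension of `χ` by the trivial character

`G` acts on the `𝔽_p`-vector space `V`, trivially on the line `C`, through `χ` on `V / C`.
-/

namespace Fermat.Agent.S14.PartA

variable {p : ℕ} [Fact p.Prime] {G V : Type*} [Group G] [AddCommGroup V] [Module (ZMod p) V]
  [DistribMulAction G V] [SMulCommClass G (ZMod p) V]

/-- The abstract data of an extension of `χ` by the trivial character. -/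
structure Adm (C : Submodule (ZMod p) V) (χ : G →* (ZMod p)ˣ) : Prop where
  fixed_sub : ∀ σ : G, ∀ x ∈ C, σ • x = x
  cyclo_quot : ∀ σ : G, ∀ x : V, σ • x - (χ σ : ZMod p) • x ∈ C
  card_sub : Nat.card C = p

variable {C : Submodule (ZMod p) V} {χ : G →* (ZMod p)ˣ}

omit [SMulCommClass G (ZMod p) V] in
/-- An element of `ker χ` stabilising a complement of `C` acts trivially. -/
theorem Adm.smul_eq_of_isCompl (h : Adm C χ) {C' : Submodule (ZMod p) V} (hc : IsCompl C C')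
    {σ : G} (hσ : χ σ = 1) (hst : ∀ x ∈ C', σ • x ∈ C') (x : V) : σ • x = x := by
  have htop : x ∈ C ⊔ C' := by rw [hc.sup_eq_top]; trivial
  obtain ⟨c, hcC, w, hw, rfl⟩ := Submodule.mem_sup.mp htop
  have h1 : σ • w - w ∈ C := by
    have := h.cyclo_quot σ w
    rwa [hσ, Units.val_one, one_smul] at this
  have h2 : σ • w - w ∈ C' := C'.sub_mem (hst w hw) hw
  have h3 : σ • w - w ∈ C ⊓ C' := ⟨h1, h2⟩
  rw [hc.inf_eq_bot, Submodule.mem_bot, sub_eq_zero] at h3
  rw [smul_add, h.fixed_sub σ c hcC, h3]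

/-- If `ker χ` acts trivially and `χ ≠ 1`, the extension splits. -/
theorem Adm.exists_isCompl (h : Adm C χ) (htriv : ∀ σ : G, χ σ = 1 → ∀ x : V, σ • x = x)
    {σ₀ : G} (hσ₀ : χ σ₀ ≠ 1) :
    ∃ C' : Submodule (ZMod p) V, (∀ σ : G, ∀ x ∈ C', σ • x ∈ C') ∧ IsCompl C C' := by
  have hne : (1 : ZMod p) - (χ σ₀ : ZMod p) ≠ 0 := by
    intro h0
    apply hσ₀
    ext
    rw [Units.val_one]
    exact (sub_eq_zero.mp h0).symm
  have hcomm : ∀ (τ : G) (x : V), σ₀ • τ • x = τ • σ₀ • x := by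
    intro τ x
    have h1 : χ ((τ * σ₀)⁻¹ * (σ₀ * τ)) = 1 := by
      simp only [map_mul, map_inv]
      rw [mul_comm (χ τ) (χ σ₀), inv_mul_cancel]
    have h2 := htriv _ h1 x
    calc σ₀ • τ • x = (τ * σ₀) • ((τ * σ₀)⁻¹ * (σ₀ * τ)) • x := by
          rw [← mul_smul, ← mul_smul, mul_inv_cancel_left]
      _ = τ • σ₀ • x := by rw [h2, mul_smul]
  refine ⟨{ carrier := {x | σ₀ • x = (χ σ₀ : ZMod p) • x}
            add_mem' := ?_, zero_mem' := ?_, smul_mem' := ?_ }, ?_, ?_⟩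
  · intro a b ha hb
    simp only [Set.mem_ofPred_eq] at ha hb ⊢
    rw [smul_add, smul_add, ha, hb]
  · simp
  · intro c x hx
    simp only [Set.mem_ofPred_eq] at hx ⊢
    rw [smul_comm, hx, smul_comm]
  · intro τ x hx
    simp only [Submodule.mem_mk, AddSubmonoid.mem_mk, AddSubsemigroup.mem_mk,
      Set.mem_ofPred_eq] at hx ⊢
    rw [hcomm, hx, smul_comm]
  · constructor
    · rw [Submodule.disjoint_def]
      intro x hxC hx
      simp only [Submodule.mem_mk, AddSubmonoid.mem_mk, AddSubsemigroup.mem_mk,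
        Set.mem_ofPred_eq] at hx
      rw [h.fixed_sub σ₀ x hxC] at hx
      have h1 : ((1 : ZMod p) - (χ σ₀ : ZMod p)) • x = 0 := by
        rw [sub_smul, one_smul, ← hx, sub_self]
      exact (smul_eq_zero.mp h1).resolve_left hne
    · rw [codisjoint_iff, eq_top_iff]
      intro x _
      set c : V := σ₀ • x - (χ σ₀ : ZMod p) • x with hc
      have hcC : c ∈ C := h.cyclo_quot σ₀ x
      set d : V := ((1 : ZMod p) - (χ σ₀ : ZMod p))⁻¹ • c with hd
      have hdC : d ∈ C := C.smul_mem _ hcC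
      have hdc : ((1 : ZMod p) - (χ σ₀ : ZMod p)) • d = c := by
        rw [hd, smul_smul, mul_inv_cancel₀ hne, one_smul]
      refine Submodule.mem_sup.mpr ⟨d, hdC, x - d, ?_, by abel⟩
      simp only [Submodule.mem_mk, AddSubmonoid.mem_mk, AddSubsemigroup.mem_mk,
        Set.mem_ofPred_eq]
      rw [smul_sub, smul_sub, h.fixed_sub σ₀ d hdC]
      have h3 : d = c + (χ σ₀ : ZMod p) • d := by
        rw [← hdc, sub_smul, one_smul]; abel
      have h4 : σ₀ • x = c + (χ σ₀ : ZMod p) • x := by rw [hc]; abel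
      rw [h4]
      nth_rewrite 1 [h3]
      abel

/-- If `ker χ` does not act trivially we get a cocycle `θ` whose restriction to `ker χ` is a
surjective homomorphism to `𝔽_p`. -/
theorem Adm.exists_theta (h : Adm C χ) {σ₁ : G} (hσ₁ : χ σ₁ = 1) {x₀ : V} (hx₀ : σ₁ • x₀ ≠ x₀) :
    ∃ θ : G → ZMod p, (∀ σ τ : G, θ (σ * τ) = (χ τ : ZMod p) * θ σ + θ τ) ∧ θ σ₁ = 1 ∧
      ∀ σ : G, (∀ x : V, σ • x = x) → χ σ = 1 ∧ θ σ = 0 := by
  set c₀ : V := σ₁ • x₀ - x₀ with hc₀
  have hc₀C : c₀ ∈ C := by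
    have := h.cyclo_quot σ₁ x₀
    rwa [hσ₁, Units.val_one, one_smul] at this
  have hc₀0 : c₀ ≠ 0 := sub_ne_zero.mpr hx₀
  have hx₀C : x₀ ∉ C := fun hx => hx₀ (h.fixed_sub σ₁ x₀ hx)
  have hinj : ∀ a b : ZMod p, a • c₀ = b • c₀ → a = b := by
    intro a b hab
    have h1 : (a - b) • c₀ = 0 := by rw [sub_smul, hab, sub_self]
    exact sub_eq_zero.mp ((smul_eq_zero.mp h1).resolve_right hc₀0)
  have hfin : Finite C := Nat.finite_of_card_ne_zero (by rw [h.card_sub]; exact (Fact.out : p.Prime).ne_zero)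
  have hbij : Function.Bijective (fun a : ZMod p => (⟨a • c₀, C.smul_mem a hc₀C⟩ : C)) := by
    apply Function.Injective.bijective_of_nat_card_le
    · intro a b hab
      exact hinj a b (congrArg Subtype.val hab)
    · rw [h.card_sub, Nat.card_zmod]
  have hex : ∀ c ∈ C, ∃ a : ZMod p, a • c₀ = c := by
    intro c hc
    obtain ⟨a, ha⟩ := hbij.2 ⟨c, hc⟩
    exact ⟨a, congrArg Subtype.val ha⟩
  choose! f hf using hex
  set θ : G → ZMod p := fun σ => f (σ • x₀ - (χ σ : ZMod p) • x₀) with hθ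
  have hθs : ∀ σ, θ σ • c₀ = σ • x₀ - (χ σ : ZMod p) • x₀ := fun σ => hf _ (h.cyclo_quot σ x₀)
  refine ⟨θ, ?_, ?_, ?_⟩
  · intro σ τ
    apply hinj
    rw [hθs, add_smul, mul_smul ((χ τ : ZMod p)) (θ σ) c₀, hθs, hθs, map_mul, Units.val_mul,
      mul_smul, mul_smul]
    have h1 : τ • x₀ = θ τ • c₀ + (χ τ : ZMod p) • x₀ := by rw [hθs]; abel
    have h2 : σ • τ • x₀ = θ τ • c₀ + (χ τ : ZMod p) • σ • x₀ := by
      rw [h1, smul_add, smul_comm σ, smul_comm σ, h.fixed_sub σ c₀ hc₀C]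
    rw [h2, hθs, smul_sub, smul_comm (χ σ : ZMod p) (χ τ : ZMod p) x₀]
    abel
  · apply hinj
    rw [hθs, hσ₁, Units.val_one, one_smul, one_smul]
  · intro σ hσ
    have h1 : χ σ = 1 := by
      by_contra hne
      have hne' : (1 : ZMod p) - (χ σ : ZMod p) ≠ 0 := by
        intro h0
        apply hne
        ext
        rw [Units.val_one]
        exact (sub_eq_zero.mp h0).symm
      have h2 := h.cyclo_quot σ x₀
      rw [hσ x₀] at h2
      have h3 : ((1 : ZMod p) - (χ σ : ZMod p)) • x₀ ∈ C := by rwa [sub_smul, one_smul]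
      have h4 := C.smul_mem ((1 : ZMod p) - (χ σ : ZMod p))⁻¹ h3
      rw [smul_smul, inv_mul_cancel₀ hne', one_smul] at h4
      exact hx₀C h4
    refine ⟨h1, ?_⟩
    apply hinj
    rw [hθs, h1, hσ x₀, Units.val_one, one_smul, sub_self, zero_smul]

end Fermat.Agent.S14.PartA
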