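import Mathlib
import Fermat.Agent.Common.PlaceBridgeVal

set_option autoImplicit false

/-!
# S14, Part A, step 3: abstract models of fixed fields of open normal subgroups
-/

namespace Fermat.Agent.S14.PartA

local notation "Qbar" => AlgebraicClosure ℚ
local notation "GQ" => (AlgebraicClosure ℚ ≃ₐ[ℚ] AlgebraicClosure ℚ)

theorem exists_model_aux (M : Type) [Field M] [CharZero M] [inst : Algebra ℚ M]
    [FiniteDimensional ℚ M] [IsGalois ℚ M] (ψ : M →+* Qbar) (P : Qbar → Prop)
    (hψ : ∀ x : Qbar, (∃ y : M, ψ y = x) ↔ P x) :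
    ∃ (M : Type) (_ : Field M) (_ : NumberField M) (_ : IsGalois ℚ M) (ψ : M →+* Qbar),
      ∀ x : Qbar, (∃ y : M, ψ y = x) ↔ P x := by
  obtain rfl : inst = DivisionRing.toRatAlgebra := Subsingleton.elim _ _
  exact ⟨M, inferInstance, ⟨⟩, inferInstance, ψ, hψ⟩

/-- The fixed field of an open normal subgroup of `Gal(ℚ̄/ℚ)` as an abstract Galois number
field. -/
theorem exists_model (N : Subgroup GQ) [hN : N.Normal] (hopen : IsOpen (N : Set GQ)) :
    ∃ (M : Type) (_ : Field M) (_ : NumberField M) (_ : IsGalois ℚ M) (ψ : M →+* Qbar),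
      ∀ x : Qbar, (∃ y : M, ψ y = x) ↔ ∀ σ ∈ N, σ x = x := by
  set L : IntermediateField ℚ Qbar := IntermediateField.fixedField N with hL
  have hfix : L.fixingSubgroup = N :=
    InfiniteGalois.fixingSubgroup_fixedField
      (⟨N, N.isClosed_of_isOpen hopen⟩ : ClosedSubgroup GQ)
  have hfin : @FiniteDimensional ℚ L _ _ (IntermediateField.algebra' L).toModule := by
    rw [← InfiniteGalois.isOpen_iff_finite, hfix]
    exact hopen
  have hgal : @IsGalois ℚ _ L _ (IntermediateField.algebra' L) := by
    rw [← InfiniteGalois.normal_iff_isGalois, hfix]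
    exact hN
  refine @exists_model_aux L _ _ (IntermediateField.algebra' L) hfin hgal (algebraMap L Qbar) _
    (fun x => ?_)
  constructor
  · rintro ⟨y, rfl⟩ σ hσ
    exact (IntermediateField.mem_fixedField_iff _ _).mp y.2 σ hσ
  · intro h
    exact ⟨⟨x, (IntermediateField.mem_fixedField_iff _ _).mpr h⟩, rfl⟩

/-- Factoring an embedding through another one with bigger image. -/
theorem exists_factor {K M F : Type*} [Field K] [Field M] [Field F] (φ : K →+* F) (ψ : M →+* F)
    (h : ∀ x : K, ∃ y : M, ψ y = φ x) : ∃ ι : K →+* M, ∀ x : K, ψ (ι x) = φ x := by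
  choose f hf using h
  refine ⟨{ toFun := f, map_one' := ?_, map_mul' := ?_, map_zero' := ?_, map_add' := ?_ }, hf⟩
  · apply ψ.injective; rw [hf, map_one, map_one]
  · intro a b; apply ψ.injective; rw [hf, map_mul, map_mul, hf, hf]
  · apply ψ.injective; rw [hf, map_zero, map_zero]
  · intro a b; apply ψ.injective; rw [hf, map_add, map_add, hf, hf]

end Fermat.Agent.S14.PartA
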