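import Mathlib
import Fermat.Prelude.Def_ExtCitation_AdmissibleExtension_v2
import Fermat.Prelude.Def_ExtCitation_KummerBridge
import Fermat.Agent.Common.PlaceBridgeSplit
import Fermat.Agent.S14.Defs
import Fermat.Agent.S14.Basic.Ord
import Fermat.Agent.S14.PartA.Linear
import Fermat.Agent.S14.PartA.Cyclo
import Fermat.Agent.S14.PartA.Model

set_option autoImplicit false

/-!
# S14, Part A: reduction of `ExtVanishingCts p` to the CORE statement on `ℚ(ζ_p)`
-/

namespace Fermat.Agent.S14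

open ExtCitation Fermat.Agent.Bridge IsDedekindDomain NumberField

local notation "Qbar" => AlgebraicClosure ℚ
local notation "GQ" => (AlgebraicClosure ℚ ≃ₐ[ℚ] AlgebraicClosure ℚ)

namespace PartA

variable {p : ℕ} [Fact p.Prime] {V : Type} [AddCommGroup V] [Module (ZMod p) V]
  [DistribMulAction GQ V] [SMulCommClass GQ (ZMod p) V] {C : Submodule (ZMod p) V}

omit [SMulCommClass GQ (ZMod p) V] in
theorem adm_of (h : IsAdmissibleExtension p V C) : Adm C (cycloChar p) where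
  fixed_sub := h.fixed_sub
  cyclo_quot := fun σ x => by rw [coe_cycloChar]; exact h.cyclo_quot σ x
  card_sub := h.card_sub

variable (V) in
/-- The kernel of the action on `V`. -/
noncomputable def actKer : Subgroup GQ := (MulAction.toPermHom GQ V).ker

instance : (actKer V).Normal := by unfold actKer; infer_instance

theorem mem_actKer {σ : GQ} : σ ∈ actKer V ↔ ∀ x : V, σ • x = x := by
  rw [actKer, MonoidHom.mem_ker, Equiv.Perm.ext_iff]
  rfl

/-- The statement of CORE for a given cyclotomic field. -/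
def CoreFor (p : ℕ) (K : Type) [Field K] [NumberField K] : Prop :=
  ∀ (ζ : K) (_ : IsPrimitiveRoot ζ p) (α : K), α ≠ 0 → ¬ IsPPow p α →
    (∀ (σ : K ≃ₐ[ℚ] K) (k : ℕ), σ ζ = ζ ^ k → IsPPow p (σ α / α ^ (k ^ 2))) →
    (∀ v : Pl K, ¬ Above p v → (p : ℤ) ∣ ord v α) →
    (∀ v : Pl K, Above p v → ∀ n : ℕ, LocPow p v n α) → False

theorem false_of_nontrivial (hadm : IsAdmissibleExtensionCts p V C)
    {K : Type} [Field K] [NumberField K] [IsCyclotomicExtension {p} ℚ K] (φ : K →+* Qbar)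
    (core : CoreFor p K) {σ₁ : GQ} (hσ₁ : cycloChar p σ₁ = 1) {x₀ : V} (hx₀ : σ₁ • x₀ ≠ x₀) :
    False := by
  have hp : p.Prime := Fact.out
  have : NeZero p := ⟨hp.ne_zero⟩
  have hAdm := adm_of hadm.toIsAdmissibleExtension
  obtain ⟨θ, hcoc', hθ₁, hker⟩ := hAdm.exists_theta hσ₁ hx₀
  have hcoc : IsCoc (cycloChar p) θ := hcoc'
  -- the kernel of the action
  have hNopen : IsOpen (actKer V : Set GQ) := by
    have := hadm.open_kernel
    convert this using 1
    ext σ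
    exact mem_actKer
  have hNle : actKer V ≤ hcoc.ker := fun σ hσ => hker σ (mem_actKer.mp hσ)
  have hcl : IsClosed (hcoc.ker : Set GQ) :=
    Subgroup.isClosed_of_isOpen _ (Subgroup.isOpen_mono hNle hNopen)
  -- the root of unity
  have hζK := IsCyclotomicExtension.zeta_spec p ℚ K
  set ζK : K := IsCyclotomicExtension.zeta p ℚ K with hζKdef
  have hζ : IsPrimitiveRoot (φ ζK) p := hζK.map_of_injective φ.injective
  set ζ : Qbar := φ ζK with hζdef
  -- the resolvent
  obtain ⟨u, hu0, hu⟩ := exists_resolvent hcoc hζ (fun g => cycloChar_spec hζ.pow_eq_one g)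
    hσ₁ hθ₁ hcl
  have hfixer : ∀ {σ : GQ}, cycloChar p σ = 1 ↔ σ ∈ fixer φ :=
    fun {σ} => cycloChar_eq_one_iff_mem_fixer φ
  obtain ⟨α, hα⟩ := exists_of_fixed φ (y := u ^ p) (fun σ hσ => by
    rw [map_pow, hu σ (hfixer.mpr hσ), mul_pow, ← pow_mul, mul_comm (θ σ).val p, pow_mul,
      hζ.pow_eq_one, one_pow, one_mul])
  have hα0 : α ≠ 0 := by
    rintro rfl
    rw [map_zero] at hα
    exact hu0 (pow_eq_zero_iff hp.ne_zero |>.mp hα.symm)
  -- the model of the fixed field of the kernel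
  obtain ⟨M, _, _, _, ψ, hψ⟩ := exists_model (actKer V) hNopen
  have hψfix : ∀ σ ∈ actKer V, ∀ y : M, σ (ψ y) = ψ y :=
    fun σ hσ y => (hψ (ψ y)).mp ⟨y, rfl⟩ σ hσ
  obtain ⟨u', hu'⟩ := (hψ u).mpr (fun σ hσ => by
    obtain ⟨h1, h2⟩ := hNle hσ
    rw [hu σ h1, h2, ZMod.val_zero, pow_zero, one_mul])
  have hu'0 : u' ≠ 0 := by
    rintro rfl
    rw [map_zero] at hu'
    exact hu0 hu'.symm
  obtain ⟨ι, hι⟩ := exists_factor φ ψ (fun x => (hψ (φ x)).mpr (fun σ hσ =>
    hfixer.mp (hNle hσ).1 x))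
  let : Algebra K M := ι.toAlgebra
  have hι' : ∀ x : K, ψ (algebraMap K M x) = φ x := hι
  have : IsScalarTower ℚ K M := IsScalarTower.of_algebraMap_eq' (Subsingleton.elim _ _)
  have : IsGalois K M := IsGalois.tower_top_of_isGalois ℚ K M
  have hαu : algebraMap K M α = u' ^ p := by
    apply ψ.injective
    rw [hι', hα, map_pow, hu']
  refine core ζK hζK α hα0 ?_ ?_ ?_ ?_
  · -- not a `p`-th power
    rintro ⟨c, hc⟩
    have hc0 : φ c ≠ 0 := by
      rw [Ne, map_eq_zero]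
      rintro rfl
      rw [zero_pow hp.ne_zero] at hc
      exact hα0 hc.symm
    have h1 : (u / φ c) ^ p = 1 := by
      rw [div_pow, ← hα, ← hc, map_pow, div_self (pow_ne_zero _ hc0)]
    obtain ⟨i, -, hi⟩ := hζ.eq_pow_of_pow_eq_one h1
    have h2 : u = ζ ^ i * φ c := by rw [hi, div_mul_cancel₀ _ hc0]
    have hσ₁' := hfixer.mp hσ₁
    have h3 : σ₁ u = u := by
      rw [h2, map_mul, map_pow, hσ₁' c, hζdef, hσ₁' ζK]
    have : Fact (1 < p) := ⟨hp.one_lt⟩
    rw [hu σ₁ hσ₁, hθ₁, ZMod.val_one, pow_one] at h3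
    exact hζ.ne_one hp.one_lt (mul_right_cancel₀ hu0 (h3.trans (one_mul u).symm))
  · -- the type
    intro τ k hk
    obtain ⟨g, hg⟩ := exists_extension φ (τ : K ≃+* K)
    have hk' : g ζ = ζ ^ k := by
      rw [hζdef, hg, ← map_pow, ← hk]
      rfl
    obtain ⟨c, hc⟩ := exists_of_fixed φ (y := g u / u ^ (k ^ 2)) (fun σ hσ =>
      resolvent_type hcoc hζ hu g hk' (hfixer.mpr hσ))
    refine ⟨c, φ.injective ?_⟩
    have h1 : φ (τ α) = g (φ α) := (hg α).symm
    rw [map_pow, hc, map_div₀, map_pow, h1, hα, map_pow, div_pow, ← pow_mul, ← pow_mul,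
      mul_comm p]
  · -- unramified outside `p`
    intro v hv
    obtain ⟨ℓ, A, hℓ, hA, hvA⟩ := exists_place_of_heightOne φ v
    have hne : ℓ ≠ p := by
      rintro rfl
      apply hv
      show (ℓ : 𝓞 K) ∈ v.asIdeal
      rw [hvA]
      exact natCast_mem_primeBelow φ hA
    obtain ⟨n, hn⟩ := exists_zpow_of_inertia_fixes (φ := ψ) hℓ hA (fun σ hσ y =>
      hψfix σ (mem_actKer.mpr (hadm.unramified_outside ℓ hℓ hne A hA σ hσ)) y) hu'0
    have h1 : A.valuation (φ α) = A.valuation (φ ((ℓ : K) ^ (n * p))) := by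
      rw [hα, map_pow, ← hu', hn, map_zpow₀, map_zpow₀, map_natCast φ, zpow_mul, zpow_natCast]
    have h2 := (valuation_eq_iff hvA).mp h1
    have h3 : ord v α = ord v ((ℓ : K) ^ (n * p)) := by
      unfold ord
      rw [h2]
    rw [h3, ord_zpow]
    exact ⟨n * ord v (ℓ : K), by ring⟩
  · -- split at `p`
    intro v hv n
    obtain ⟨A, hA, hvA⟩ := Bridge.exists_place φ hp v.asIdeal hv
    refine exists_pow_close_of_decomposition hp hA hι' ?_ hvA.symm p hu'0 hαu n
    intro σ hσ hσK y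
    obtain ⟨C', hst, hcompl⟩ := hadm.locally_split A hA
    exact hψfix σ (mem_actKer.mpr
      (hAdm.smul_eq_of_isCompl hcompl (hfixer.mpr hσK) (hst σ hσ))) y

theorem exists_cyclo_aux (K : Type) [Field K] [CharZero K] [inst : Algebra ℚ K]
    [IsCyclotomicExtension {p} ℚ K] :
    ∃ (K : Type) (_ : Field K) (_ : NumberField K) (_ : IsCyclotomicExtension {p} ℚ K),
      Nonempty (K →+* Qbar) := by
  obtain rfl : inst = DivisionRing.toRatAlgebra := Subsingleton.elim _ _
  have : NeZero p := ⟨(Fact.out : p.Prime).ne_zero⟩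
  have : NumberField K := IsCyclotomicExtension.numberField {p} ℚ K
  exact ⟨K, inferInstance, inferInstance, inferInstance,
    ⟨((IsAlgClosed.lift : K →ₐ[ℚ] Qbar) : K →+* Qbar)⟩⟩

end PartA

open PartA in
/-- **Part A**: `ExtVanishingCts p` follows from CORE. -/
theorem extVanishingCts_of_core {p : ℕ} [Fact p.Prime] (h3 : 3 ≤ p)
    (core : ∀ (K : Type) [Field K] [NumberField K] [IsCyclotomicExtension {p} ℚ K] (ζ : K)
      (_ : IsPrimitiveRoot ζ p) (α : K), α ≠ 0 → ¬ IsPPow p α →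
      (∀ (σ : K ≃ₐ[ℚ] K) (k : ℕ), σ ζ = ζ ^ k → IsPPow p (σ α / α ^ (k ^ 2))) →
      (∀ v : Pl K, ¬ Above p v → (p : ℤ) ∣ ord v α) →
      (∀ v : Pl K, Above p v → ∀ n : ℕ, LocPow p v n α) → False) :
    ExtCitation.ExtVanishingCts p := by
  intro V _ _ _ _ C hadm
  by_cases htriv : ∀ σ : GQ, cycloChar p σ = 1 → ∀ x : V, σ • x = x
  · obtain ⟨σ₀, hσ₀⟩ := exists_cycloChar_ne_one h3
    exact (adm_of hadm.toIsAdmissibleExtension).exists_isCompl htriv hσ₀
  · exfalso
    push Not at htriv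
    obtain ⟨σ₁, hσ₁, x₀, hx₀⟩ := htriv
    obtain ⟨K, _, _, _, ⟨φ⟩⟩ := @exists_cyclo_aux p _ (CyclotomicField p ℚ) _ _
      (CyclotomicField.algebra p ℚ) inferInstance
    exact false_of_nontrivial hadm φ (core K) hσ₁ hx₀

end Fermat.Agent.S14
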